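/-
Project MW (S17), core leaf [SYL] (helper18): `L`-SPACES on `X₀(N)` over `Q̄` — multiplication,
exact orders, steps of flags, enumeration of effective divisors.  Prefix `mw_syl_`.
-/
import Fermat.Agent.MW.Core.Val
import Fermat.Agent.JT3.Riemann.FBar
import Fermat.Agent.FF.Generic

set_option autoImplicit false
set_option linter.unusedSectionVars false

noncomputable section

namespace Fermat.Agent.MW

open AlgebraicCurve ModularCurve Fermat.Agent.S24 Fermat.Agent.JT3 Fermat.Agent.FF
open scoped Classical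

variable {N : ℕ} [NeZero N]

/-! ### multiplication -/

theorem mw_syl_mul_mem {D E : mw_Div N} {f s : mw_F N} (hf : f ∈ riemannRochSpace D)
    (hs : s ∈ riemannRochSpace E) : f * s ∈ riemannRochSpace (D + E) := by
  rcases eq_or_ne f 0 with rfl | hf0
  · rw [zero_mul]; exact zero_mem _
  rcases eq_or_ne s 0 with rfl | hs0
  · rw [mul_zero]; exact zero_mem _
  rw [rt_mem_L_iff (mul_ne_zero hf0 hs0)]
  intro v
  have h1 := (rt_mem_L_iff hf0).mp hf v
  have h2 := (rt_mem_L_iff hs0).mp hs v
  rw [v.ord_mul hf0 hs0, Finsupp.add_apply]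
  omega

/-- multiplication by `f` as a linear map between two subspaces (`0` if it does not map the first
into the second) -/
def mw_syl_mulBy (f : mw_F N) (V W : Submodule mw_K (mw_F N)) : ↥V →ₗ[mw_K] ↥W :=
  if h : ∀ s ∈ V, f * s ∈ W then
    LinearMap.codRestrict W ((LinearMap.mulLeft mw_K f).comp V.subtype) (fun s => h s s.2)
  else 0

theorem mw_syl_mulBy_apply {f : mw_F N} {V W : Submodule mw_K (mw_F N)}
    (h : ∀ s ∈ V, f * s ∈ W) (s : ↥V) : ((mw_syl_mulBy f V W s : ↥W) : mw_F N) = f * s := by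
  rw [mw_syl_mulBy, dif_pos h]
  rfl

/-- `mulBy` is linear in the multiplier -/
theorem mw_syl_mulBy_sum {ι : Type} [Fintype ι] (c : ι → mw_K) (y : ι → mw_F N)
    {V W : Submodule mw_K (mw_F N)} (h : ∀ b, ∀ s ∈ V, y b * s ∈ W) :
    mw_syl_mulBy (∑ b, algebraMap mw_K (mw_F N) (c b) * y b) V W
      = ∑ b, c b • mw_syl_mulBy (y b) V W := by
  have h' : ∀ s ∈ V, (∑ b, algebraMap mw_K (mw_F N) (c b) * y b) * s ∈ W := by
    intro s hs
    rw [Finset.sum_mul]
    refine W.sum_mem fun b _ => ?_
    rw [mul_assoc, ← Algebra.smul_def]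
    exact W.smul_mem _ (h b s hs)
  apply LinearMap.ext
  intro s
  apply Subtype.ext
  rw [mw_syl_mulBy_apply h', LinearMap.sum_apply, Submodule.coe_sum, Finset.sum_mul]
  refine Finset.sum_congr rfl fun b _ => ?_
  rw [LinearMap.smul_apply, Submodule.coe_smul, mw_syl_mulBy_apply (h b), Algebra.smul_def,
    mul_assoc]

/-! ### exact orders -/

/-- an element of `L(E)` outside `L(E - w)` has order exactly `-E(w)` at `w` -/
theorem mw_syl_ord_of_not_mem {E : mw_Div N} {w : mw_X N} {f : mw_F N}
    (hf : f ∈ riemannRochSpace E) (hf' : f ∉ riemannRochSpace (E - Finsupp.single w 1)) :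
    f ≠ 0 ∧ w.ord f = -E w := by
  have hf0 : f ≠ 0 := fun h => hf' (h ▸ zero_mem _)
  refine ⟨hf0, ?_⟩
  rw [rt_mem_L_iff hf0] at hf hf'
  push Not at hf'
  obtain ⟨v, hv⟩ := hf'
  have h1 := hf v
  by_cases hvw : v = w
  · subst hvw
    rw [Finsupp.sub_apply, Finsupp.single_eq_same] at hv
    omega
  · rw [Finsupp.sub_apply, Finsupp.single_eq_of_ne hvw, sub_zero] at hv
    omega

/-- conversely -/
theorem mw_syl_not_mem_of_ord {E : mw_Div N} {w : mw_X N} {f : mw_F N} (hf0 : f ≠ 0)
    (hord : w.ord f = -E w) : f ∉ riemannRochSpace (E - Finsupp.single w 1) := by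
  intro hf
  have := (rt_mem_L_iff hf0).mp hf w
  rw [Finsupp.sub_apply, Finsupp.single_eq_same] at this
  omega

/-- **the step**: modulo `L(E - w)`, every `n ∈ L(E)` is the multiple `(n/h)(w) · h` of an element
`h` of exact order `-E(w)` at `w` -/
theorem mw_syl_step {E : mw_Div N} {w : mw_X N} {h n : mw_F N} (hh0 : h ≠ 0)
    (hh : h ∈ riemannRochSpace E) (hw : w.ord h = -E w) (hn : n ∈ riemannRochSpace E) :
    n / h ∈ w.toValuationSubring ∧
      n - algebraMap mw_K (mw_F N) (mw_val w (n / h)) * h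
        ∈ riemannRochSpace (E - Finsupp.single w 1) := by
  rcases eq_or_ne n 0 with rfl | hn0
  · rw [zero_div]
    refine ⟨zero_mem _, ?_⟩
    rw [mw_v_zero, map_zero, zero_mul, sub_zero]
    exact zero_mem _
  have hq0 : n / h ≠ 0 := div_ne_zero hn0 hh0
  have hqmem : n / h ∈ w.toValuationSubring := by
    rw [mw_v_mem_iff w hq0, div_eq_mul_inv, w.ord_mul hn0 (inv_ne_zero hh0), w.ord_inv, hw]
    have := (rt_mem_L_iff hn0).mp hn w
    omega
  refine ⟨hqmem, ?_⟩
  set t := mw_val w (n / h) with ht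
  have hspec := mw_v_spec w hqmem
  rw [← ht] at hspec
  have hmem : n - algebraMap mw_K (mw_F N) t * h ∈ riemannRochSpace E := by
    refine Submodule.sub_mem _ hn ?_
    rw [← Algebra.smul_def]
    exact Submodule.smul_mem _ _ hh
  rcases eq_or_ne (n - algebraMap mw_K (mw_F N) t * h) 0 with h0 | h0
  · rw [h0]; exact zero_mem _
  have hfac : n - algebraMap mw_K (mw_F N) t * h = h * (n / h - algebraMap mw_K (mw_F N) t) := by
    field_simp
  have hne : n / h - algebraMap mw_K (mw_F N) t ≠ 0 := by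
    intro hz
    apply h0
    rw [hfac, hz, mul_zero]
  have hpos := (mw_v_mem_nonunits_iff w hne).mp hspec
  rw [rt_mem_L_iff h0]
  intro v
  by_cases hvw : v = w
  · subst hvw
    rw [Finsupp.sub_apply, Finsupp.single_eq_same, hfac, v.ord_mul hh0 hne, hw]
    omega
  · rw [Finsupp.sub_apply, Finsupp.single_eq_of_ne hvw, sub_zero]
    exact (rt_mem_L_iff h0).mp hmem v

/-! ### partial sums of a sequence of points -/

/-- `z_0 + … + z_{i-1}` -/
def mw_syl_part {a : ℕ} (z : Fin a → mw_X N) (i : ℕ) : mw_Div N :=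
  ∑ i' : Fin a, if i'.val < i then Finsupp.single (z i') (1 : ℤ) else 0

theorem mw_syl_part_zero {a : ℕ} (z : Fin a → mw_X N) : mw_syl_part z 0 = 0 := by
  simp [mw_syl_part]

theorem mw_syl_part_succ {a : ℕ} (z : Fin a → mw_X N) (i : Fin a) :
    mw_syl_part z (i.val + 1) = mw_syl_part z i.val + Finsupp.single (z i) 1 := by
  rw [mw_syl_part, mw_syl_part]
  have : ∀ i' : Fin a, (if i'.val < i.val + 1 then Finsupp.single (z i') (1 : ℤ) else 0)
      = (if i'.val < i.val then Finsupp.single (z i') (1 : ℤ) else 0)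
        + (if i' = i then Finsupp.single (z i') (1 : ℤ) else 0) := by
    intro i'
    by_cases h1 : i'.val < i.val
    · have h2 : i' ≠ i := fun h => by rw [h] at h1; exact lt_irrefl _ h1
      rw [if_pos h1, if_pos (by omega), if_neg h2, add_zero]
    · by_cases h2 : i' = i
      · subst h2
        rw [if_neg h1, if_pos (by omega), if_pos rfl, zero_add]
      · have h3 : ¬ i'.val < i.val + 1 := by
          intro h
          apply h2
          apply Fin.ext
          omega
        rw [if_neg h1, if_neg h3, if_neg h2, add_zero]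
  rw [Finset.sum_congr rfl fun i' _ => this i', Finset.sum_add_distrib, Finset.sum_ite_eq']
  simp

theorem mw_syl_part_top {a : ℕ} (z : Fin a → mw_X N) :
    mw_syl_part z a = ∑ i, Finsupp.single (z i) (1 : ℤ) := by
  rw [mw_syl_part]
  exact Finset.sum_congr rfl fun i' _ => by rw [if_pos i'.2]

/-! ### enumeration of an effective divisor -/

theorem mw_syl_enum : ∀ (a : ℕ) (Z : mw_Div N), 0 ≤ Z → Divisor.degree Z = a →
    ∃ z : Fin a → mw_X N, ∑ i, Finsupp.single (z i) (1 : ℤ) = Z := by
  intro a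
  induction a with
  | zero =>
    intro Z hZ hdeg
    refine ⟨Fin.elim0, ?_⟩
    rw [Finset.univ_eq_empty, Finset.sum_empty]
    by_contra hne
    have := rt_degree_lt_of_lt (rt_isSepGen_jBar N) hZ hne
    rw [map_zero, hdeg] at this
    exact lt_irrefl _ (by exact_mod_cast this)
  | succ a ih =>
    intro Z hZ hdeg
    have hZ0 : Z ≠ 0 := by
      rintro rfl
      rw [map_zero] at hdeg
      have : (0 : ℤ) = ((a + 1 : ℕ) : ℤ) := hdeg
      omega
    obtain ⟨w, hw⟩ : ∃ w, Z w ≠ 0 := by
      by_contra hcon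
      push Not at hcon
      exact hZ0 (Finsupp.ext hcon)
    have hwpos : 0 < Z w := lt_of_le_of_ne (Finsupp.le_def.mp hZ w) (Ne.symm hw)
    have hZ' : 0 ≤ Z - Finsupp.single w 1 := by
      rw [Finsupp.le_def]
      intro v
      rw [Finsupp.sub_apply, Finsupp.zero_apply]
      by_cases hvw : v = w
      · subst hvw
        rw [Finsupp.single_eq_same]
        omega
      · rw [Finsupp.single_eq_of_ne hvw, sub_zero]
        exact Finsupp.le_def.mp hZ v
    have hdeg' : Divisor.degree (Z - Finsupp.single w 1) = a := by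
      rw [map_sub, hdeg, rt_degree_single (rt_isSepGen_jBar N)]
      push_cast
      ring
    obtain ⟨z', hz'⟩ := ih _ hZ' hdeg'
    refine ⟨Fin.cons w z', ?_⟩
    rw [Fin.sum_univ_succ]
    simp only [Fin.cons_zero, Fin.cons_succ]
    rw [hz']
    abel

/-- the multiplicity of `w` in the sequence `z` -/
def mw_syl_mult {a : ℕ} (z : Fin a → mw_X N) (w : mw_X N) : ℕ :=
  (Finset.univ.filter fun i => z i = w).card

theorem mw_syl_sum_single_apply {a : ℕ} (z : Fin a → mw_X N) (w : mw_X N) :
    (∑ i, Finsupp.single (z i) (1 : ℤ)) w = (mw_syl_mult z w : ℤ) := by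
  rw [Finsupp.finsetSum_apply, mw_syl_mult, Finset.card_filter]
  push_cast
  exact Finset.sum_congr rfl fun i _ => by rw [Finsupp.single_apply]

/-- a product over the sequence `z` as a `finprod` over the points with multiplicities -/
theorem mw_syl_prod_eq_finprod {M : Type*} [CommMonoid M] {a : ℕ} (z : Fin a → mw_X N)
    (φ : mw_X N → M) (m : mw_X N → ℕ) (hm : ∀ w, m w = mw_syl_mult z w) :
    ∏ i, φ (z i) = ∏ᶠ w : mw_X N, φ w ^ m w := by
  rw [Finset.prod_comp φ z]
  rw [finprod_eq_prod_of_mulSupport_subset (s := Finset.univ.image z)]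
  · refine Finset.prod_congr rfl fun w _ => ?_
    rw [hm w, mw_syl_mult]
  · intro w hw
    rw [Function.mem_mulSupport] at hw
    rw [Finset.mem_coe, Finset.mem_image]
    by_contra hcon
    push Not at hcon
    apply hw
    have : m w = 0 := by
      rw [hm w, mw_syl_mult, Finset.card_eq_zero, Finset.filter_eq_empty_iff]
      intro i _
      exact hcon i (Finset.mem_univ i)
    rw [this, pow_zero]

end Fermat.Agent.MW
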