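/-
Project MW (S17), core leaf [SYL] (helper18): flags of `L`-spaces along an effective divisor,
base-point-freeness, the auxiliary divisor `T`.  Prefix `mw_syl_`.
-/
import Fermat.Agent.MW.Core.SYL.LSp

set_option autoImplicit false
set_option linter.unusedSectionVars false

noncomputable section

namespace Fermat.Agent.MW

open AlgebraicCurve ModularCurve Fermat.Agent.S24 Fermat.Agent.JT3 Fermat.Agent.FF
open scoped Classical

variable {N : ℕ} [NeZero N]

/-! ### strict steps -/

theorem mw_syl_part_nonneg {a : ℕ} (z : Fin a → mw_X N) (i : ℕ) : 0 ≤ mw_syl_part z i := by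
  rw [mw_syl_part]
  refine Finset.sum_nonneg fun i' _ => ?_
  split_ifs
  · rw [Finsupp.le_def]
    intro v
    rw [Finsupp.zero_apply, Finsupp.single_apply]
    split_ifs <;> norm_num
  · exact le_rfl

theorem mw_syl_sub_part_succ {a : ℕ} (D : mw_Div N) (z : Fin a → mw_X N) (i : Fin a) :
    D - mw_syl_part z (i.val + 1) = D - mw_syl_part z i.val - Finsupp.single (z i) 1 := by
  rw [mw_syl_part_succ, sub_add_eq_sub_sub]

theorem mw_syl_l_le {a : ℕ} (D : mw_Div N) (z : Fin a → mw_X N) :
    ∀ (j i : ℕ), i + j = a →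
      Module.finrank mw_K (riemannRochSpace (D - mw_syl_part z i))
        ≤ Module.finrank mw_K (riemannRochSpace (D - mw_syl_part z a)) + j := by
  intro j
  induction j with
  | zero =>
    intro i hi
    have : i = a := by omega
    rw [this, add_zero]
  | succ j ih =>
    intro i hi
    have hia : i < a := by omega
    have h1 := ih (i + 1) (by omega)
    have e : D - mw_syl_part z (i + 1) + Finsupp.single (z ⟨i, hia⟩) 1 = D - mw_syl_part z i := by
      have := mw_syl_sub_part_succ D z ⟨i, hia⟩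
      simp only at this
      rw [this, sub_add_cancel]
    have h2 : Module.finrank mw_K (riemannRochSpace (D - mw_syl_part z i))
        ≤ Module.finrank mw_K (riemannRochSpace (D - mw_syl_part z (i + 1))) + 1 := by
      have := ffg_l_add_single_le (rt_isSepGen_jBar N) (D - mw_syl_part z (i + 1)) (z ⟨i, hia⟩)
      rw [e] at this
      exact this
    omega

theorem mw_syl_l_zero_le {a : ℕ} (D : mw_Div N) (z : Fin a → mw_X N) :
    ∀ i : ℕ, i ≤ a →
      Module.finrank mw_K (riemannRochSpace D)
        ≤ Module.finrank mw_K (riemannRochSpace (D - mw_syl_part z i)) + i := by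
  intro i
  induction i with
  | zero =>
    intro _
    rw [mw_syl_part_zero, sub_zero, add_zero]
  | succ i ih =>
    intro hi
    have hia : i < a := by omega
    have h1 := ih (by omega)
    have e : D - mw_syl_part z (i + 1) + Finsupp.single (z ⟨i, hia⟩) 1 = D - mw_syl_part z i := by
      have := mw_syl_sub_part_succ D z ⟨i, hia⟩
      simp only at this
      rw [this, sub_add_cancel]
    have h2 : Module.finrank mw_K (riemannRochSpace (D - mw_syl_part z i))
        ≤ Module.finrank mw_K (riemannRochSpace (D - mw_syl_part z (i + 1))) + 1 := by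
      have := ffg_l_add_single_le (rt_isSepGen_jBar N) (D - mw_syl_part z (i + 1)) (z ⟨i, hia⟩)
      rw [e] at this
      exact this
    omega

/-- if the dimension drops by `a` along the flag, every step is strict -/
theorem mw_syl_strict {a : ℕ} (D : mw_Div N) (z : Fin a → mw_X N)
    (hdim : Module.finrank mw_K (riemannRochSpace D)
      = Module.finrank mw_K (riemannRochSpace (D - mw_syl_part z a)) + a) (i : Fin a) :
    ∃ h : mw_F N, h ∈ riemannRochSpace (D - mw_syl_part z i.val) ∧
      h ∉ riemannRochSpace (D - mw_syl_part z (i.val + 1)) := by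
  by_contra hcon
  push Not at hcon
  have hle : riemannRochSpace (D - mw_syl_part z i.val)
      ≤ riemannRochSpace (D - mw_syl_part z (i.val + 1)) := fun h hh => hcon h hh
  have hfin := rt_L_finite (rt_isSepGen_jBar N) (D - mw_syl_part z (i.val + 1))
  have h1 := Submodule.finrank_mono hle
  have h2 := mw_syl_l_zero_le D z i.val (le_of_lt i.2)
  have h3 := mw_syl_l_le D z (a - (i.val + 1)) (i.val + 1) (by omega)
  omega

/-! ### base-point-freeness -/

/-- Riemann exactness in degrees `≥ c` makes every divisor of degree `≥ c + 1` base point free -/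
theorem mw_syl_bpf (g : ℕ) (c : ℤ)
    (hR : ∀ D : mw_Div N, c ≤ Divisor.degree D →
      (Module.finrank mw_K ↥(riemannRochSpace D) : ℤ) = Divisor.degree D + 1 - g)
    (D : mw_Div N) (hD : c + 1 ≤ Divisor.degree D) (w : mw_X N) :
    ∃ f : mw_F N, f ∈ riemannRochSpace D ∧ f ≠ 0 ∧ w.ord f = -D w := by
  have h1 := hR D (by omega)
  have hdeg : Divisor.degree (D - Finsupp.single w 1) = Divisor.degree D - 1 := by
    rw [map_sub, rt_degree_single (rt_isSepGen_jBar N)]
  have h2 := hR (D - Finsupp.single w 1) (by rw [hdeg]; omega)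
  rw [hdeg] at h2
  by_contra hcon
  push Not at hcon
  have hle : riemannRochSpace D ≤ riemannRochSpace (D - Finsupp.single w 1) := by
    intro f hf
    by_contra hf'
    obtain ⟨hf0, hord⟩ := mw_syl_ord_of_not_mem hf hf'
    exact hcon f hf hf0 hord
  have hfin := rt_L_finite (rt_isSepGen_jBar N) (D - Finsupp.single w 1)
  have h3 := Submodule.finrank_mono hle
  omega

/-- the pivot of a spanning family of a base point free `L(D)` has order exactly `-D(w)` -/
theorem mw_syl_ord_piv {s : ℕ} {ψ : Fin (s + 1) → mw_F N} {D : mw_Div N}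
    (hspan : Submodule.span mw_K (Set.range ψ) = riemannRochSpace D) {w : mw_X N}
    (hbpf : ∃ f : mw_F N, f ∈ riemannRochSpace D ∧ f ≠ 0 ∧ w.ord f = -D w) :
    (∃ b, ψ b ≠ 0) ∧ w.ord (ψ (mw_piv ψ w)) = -D w := by
  obtain ⟨f, hf, hf0, hord⟩ := hbpf
  rw [← hspan] at hf
  obtain ⟨c, hc⟩ := (Submodule.mem_span_range_iff_exists_fun mw_K).mp hf
  have hsec : mw_sec ψ c = f := by
    rw [← hc, mw_sec]
    exact Finset.sum_congr rfl fun b _ => by rw [Algebra.smul_def]
  have hψ0 : ∃ b, ψ b ≠ 0 := by
    by_contra hcon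
    push Not at hcon
    apply hf0
    rw [← hc]
    exact Finset.sum_eq_zero fun b _ => by rw [hcon b, smul_zero]
  refine ⟨hψ0, ?_⟩
  obtain ⟨hp0, -⟩ := mw_v_piv_spec ψ hψ0 w
  have hpmem : ψ (mw_piv ψ w) ∈ riemannRochSpace D := by
    rw [← hspan]
    exact Submodule.subset_span ⟨_, rfl⟩
  have h1 := (rt_mem_L_iff hp0).mp hpmem w
  have h2 := mw_v_sec_div_mem ψ hψ0 w c
  rw [hsec, mw_v_mem_iff w (div_ne_zero hf0 hp0), div_eq_mul_inv,
    w.ord_mul hf0 (inv_ne_zero hp0), w.ord_inv] at h2
  omega

/-- the multiplicity of `w` in the zero divisor of the section `G_c` -/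
theorem mw_syl_zeroMult {s : ℕ} {ψ : Fin (s + 1) → mw_F N} {D : mw_Div N} {w : mw_X N}
    (hψ0 : ∃ b, ψ b ≠ 0) (hpiv : w.ord (ψ (mw_piv ψ w)) = -D w) (c : Fin (s + 1) → mw_K)
    (hsec : mw_sec ψ c ≠ 0) : mw_zeroMult ψ c w = w.ord (mw_sec ψ c) + D w := by
  obtain ⟨hp0, -⟩ := mw_v_piv_spec ψ hψ0 w
  rw [mw_zeroMult, div_eq_mul_inv, w.ord_mul hsec (inv_ne_zero hp0), w.ord_inv, hpiv]
  ring

/-! ### the auxiliary divisor `T` -/

theorem mw_syl_exists_T (g : ℕ) (c : ℤ)
    (hR : ∀ D : mw_Div N, c ≤ Divisor.degree D →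
      (Module.finrank mw_K ↥(riemannRochSpace D) : ℤ) = Divisor.degree D + 1 - g)
    (P : mw_X N) :
    ∃ T : mw_Div N, Divisor.degree T = (g : ℤ) - 1 ∧ riemannRochSpace T = ⊥ := by
  obtain ⟨Q, -, -, hQ⟩ := ffg_generic (rt_isSepGen_jBar N) g c hR
    {Finsupp.single P (-1 : ℤ)} (by
      intro C hC
      rw [Finset.mem_singleton] at hC
      rw [hC, rt_degree_single (rt_isSepGen_jBar N)]) ∅
  refine ⟨Finsupp.single P (-1 : ℤ) + ∑ i, Finsupp.single (Q i) (1 : ℤ), ?_, ?_⟩
  · rw [map_add, map_sum, rt_degree_single (rt_isSepGen_jBar N)]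
    simp only [rt_degree_single (rt_isSepGen_jBar N), Finset.sum_const, Finset.card_univ,
      Fintype.card_fin, nsmul_eq_mul, mul_one]
    ring
  · have h0 := hQ _ (Finset.mem_singleton_self _)
    have hfin := rt_L_finite (rt_isSepGen_jBar N)
      (Finsupp.single P (-1 : ℤ) + ∑ i, Finsupp.single (Q i) (1 : ℤ))
    exact Submodule.finrank_eq_zero.mp h0

end Fermat.Agent.MW
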