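/-
Project MW (S17), core leaf [SYL] (helper18): the abstract FLAG / TRIANGULAR DETERMINANT LEMMA
(Mathlib only).  Prefix `mw_syl_`.

`V3` carries a decreasing flag `Nf 0 = ⊤ ⊇ Nf 1 ⊇ … ⊇ Nf a`, `Nf a ⊆ range g`, each step generated by
`h i` modulo the next one; `f` spans `V2`.  If `m (f i) ≡ d i • h i` modulo `Nf (i+1)`, then the
determinant of `(v₁, v₂) ↦ g v₁ + m v₂` in FIXED bases is `A₀ · ∏ d i`, with `A₀ ≠ 0` independent of
`m` and `d`.
-/
import Mathlib

set_option autoImplicit false

noncomputable section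

namespace Fermat.Agent.MW

open Module

variable {K V1 V2 V3 : Type*} [Field K] [AddCommGroup V1] [Module K V1] [AddCommGroup V2]
  [Module K V2] [AddCommGroup V3] [Module K V3]

/-- every element of the `i`-th member of the flag is a combination of `h i, h (i+1), …` and an
element of `range g` -/
theorem mw_syl_flag_span {ι : Type*} {a : ℕ} (e1 : Basis ι K V1) (g : V1 →ₗ[K] V3)
    (Nf : ℕ → Submodule K V3) (hNa : Nf a ≤ LinearMap.range g) (h : Fin a → V3)
    (hstep : ∀ i : Fin a, ∀ n ∈ Nf i, ∃ t : K, n - t • h i ∈ Nf (i + 1)) :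
    ∀ (j i : ℕ), i + j = a → ∀ n ∈ Nf i,
      n ∈ Submodule.span K (Set.range (Sum.elim (g ∘ e1) h)) := by
  intro j
  induction j with
  | zero =>
    intro i hi n hn
    have hia : i = a := by omega
    subst hia
    obtain ⟨v, rfl⟩ := hNa hn
    have hv : v ∈ Submodule.span K (Set.range e1) := by rw [e1.span_eq]; trivial
    have : g v ∈ Submodule.span K (g '' Set.range e1) := by
      rw [← Submodule.map_span]; exact Submodule.mem_map_of_mem hv
    refine Submodule.span_mono ?_ this
    rintro _ ⟨_, ⟨k, rfl⟩, rfl⟩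
    exact ⟨Sum.inl k, rfl⟩
  | succ j ih =>
    intro i hi n hn
    have hia : i < a := by omega
    obtain ⟨t, ht⟩ := hstep ⟨i, hia⟩ n hn
    have h1 := ih (i + 1) (by omega) _ ht
    have h2 : t • h ⟨i, hia⟩ ∈ Submodule.span K (Set.range (Sum.elim (g ∘ e1) h)) :=
      Submodule.smul_mem _ _ (Submodule.subset_span ⟨Sum.inr ⟨i, hia⟩, rfl⟩)
    have := Submodule.add_mem _ h1 h2
    simpa using this

/-- the same without `g`: a flag ending at `⊥` is spanned by adapted elements -/
theorem mw_syl_flag_span_bot {a : ℕ} (Nf : ℕ → Submodule K V2) (hNa : Nf a = ⊥) (f : Fin a → V2)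
    (hstep : ∀ i : Fin a, ∀ n ∈ Nf i, ∃ t : K, n - t • f i ∈ Nf (i + 1)) :
    ∀ (j i : ℕ), i + j = a → ∀ n ∈ Nf i, n ∈ Submodule.span K (Set.range f) := by
  intro j
  induction j with
  | zero =>
    intro i hi n hn
    have hia : i = a := by omega
    subst hia
    rw [hNa, Submodule.mem_bot] at hn
    rw [hn]
    exact zero_mem _
  | succ j ih =>
    intro i hi n hn
    have hia : i < a := by omega
    obtain ⟨t, ht⟩ := hstep ⟨i, hia⟩ n hn
    have h1 := ih (i + 1) (by omega) _ ht
    have h2 : t • f ⟨i, hia⟩ ∈ Submodule.span K (Set.range f) :=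
      Submodule.smul_mem _ _ (Submodule.subset_span ⟨⟨i, hia⟩, rfl⟩)
    have := Submodule.add_mem _ h1 h2
    simpa using this

/-- coordinates with respect to a basis extending `g ∘ e1` by `h`: vanishing below the flag level -/
theorem mw_syl_flag_repr {ι : Type*} {a : ℕ} (e1 : Basis ι K V1) (g : V1 →ₗ[K] V3)
    (Nf : ℕ → Submodule K V3) (hNa : Nf a ≤ LinearMap.range g) (h : Fin a → V3)
    (hstep : ∀ i : Fin a, ∀ n ∈ Nf i, ∃ t : K, n - t • h i ∈ Nf (i + 1))
    (hb : Basis (ι ⊕ Fin a) K V3) (hhb : ⇑hb = Sum.elim (g ∘ e1) h) :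
    ∀ (j i : ℕ), i + j = a → ∀ n ∈ Nf i, ∀ i' : Fin a, i'.val < i →
      hb.repr n (Sum.inr i') = 0 := by
  intro j
  induction j with
  | zero =>
    intro i hi n hn i' hi'
    have hia : i = a := by omega
    subst hia
    obtain ⟨v, rfl⟩ := hNa hn
    have hgv : g v = (Finsupp.linearCombination K (g ∘ e1)) (e1.repr v) := by
      conv_lhs => rw [← e1.linearCombination_repr v]
      rw [Finsupp.linearCombination_apply, Finsupp.linearCombination_apply, Finsupp.sum, Finsupp.sum,
        map_sum]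
      exact Finset.sum_congr rfl fun k _ => by rw [map_smul]; rfl
    rw [hgv, Finsupp.linearCombination_apply, Finsupp.sum, map_sum, Finsupp.coe_finsetSum,
      Finset.sum_apply]
    refine Finset.sum_eq_zero fun k _ => ?_
    have : (g ∘ e1) k = hb (Sum.inl k) := by rw [hhb]; rfl
    rw [this, map_smul, hb.repr_self, Finsupp.smul_apply, Finsupp.single_eq_of_ne (by simp),
      smul_zero]
  | succ j ih =>
    intro i hi n hn i' hi'
    have hia : i < a := by omega
    obtain ⟨t, ht⟩ := hstep ⟨i, hia⟩ n hn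
    have h1 := ih (i + 1) (by omega) _ ht i' (by omega)
    have hh : h ⟨i, hia⟩ = hb (Sum.inr ⟨i, hia⟩) := by rw [hhb]; rfl
    rw [map_sub, map_smul, hh, hb.repr_self, Finsupp.sub_apply, Finsupp.smul_apply,
      Finsupp.single_eq_of_ne, smul_zero, sub_zero] at h1
    · exact h1
    · intro heq
      have := Sum.inr_injective heq
      rw [Fin.ext_iff] at this
      simp only at this
      omega

/-- **the flag determinant lemma** -/
theorem mw_syl_flag_det {ι : Type*} [Fintype ι] [DecidableEq ι] {a : ℕ}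
    (e1 : Basis ι K V1) (e2 : Basis (Fin a) K V2) (e3 : Basis (ι ⊕ Fin a) K V3)
    (g : V1 →ₗ[K] V3) (Nf : ℕ → Submodule K V3) (hN0 : Nf 0 = ⊤)
    (hNa : Nf a ≤ LinearMap.range g)
    (f : Fin a → V2) (hf : ⊤ ≤ Submodule.span K (Set.range f))
    (h : Fin a → V3)
    (hstep : ∀ i : Fin a, ∀ n ∈ Nf i, ∃ t : K, n - t • h i ∈ Nf (i + 1)) :
    ∃ A₀ : K, A₀ ≠ 0 ∧ ∀ (m : V2 →ₗ[K] V3) (d : Fin a → K),
      (∀ i : Fin a, m (f i) - d i • h i ∈ Nf (i + 1)) →
      (LinearMap.toMatrix (e1.prod e2) e3 (g.coprod m)).det = A₀ * ∏ i, d i := by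
  classical
  -- the adapted bases
  have hfin2 : Module.finrank K V2 = a := by rw [Module.finrank_eq_card_basis e2]; simp
  have hfin3 : Module.finrank K V3 = Fintype.card (ι ⊕ Fin a) :=
    Module.finrank_eq_card_basis e3
  let fb : Basis (Fin a) K V2 := basisOfTopLeSpanOfCardEqFinrank f hf (by rw [hfin2]; simp)
  have hfb : ⇑fb = f := coe_basisOfTopLeSpanOfCardEqFinrank _ _ _
  have hspan : ⊤ ≤ Submodule.span K (Set.range (Sum.elim (g ∘ e1) h)) := by
    intro n _
    exact mw_syl_flag_span e1 g Nf hNa h hstep a 0 (by omega) n (by rw [hN0]; trivial)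
  let hb : Basis (ι ⊕ Fin a) K V3 :=
    basisOfTopLeSpanOfCardEqFinrank (Sum.elim (g ∘ e1) h) hspan hfin3.symm
  have hhb : ⇑hb = Sum.elim (g ∘ e1) h := coe_basisOfTopLeSpanOfCardEqFinrank _ _ _
  have hrep := mw_syl_flag_repr e1 g Nf hNa h hstep hb hhb
  -- the constant
  have hd1 : (e3.toMatrix hb).det * (hb.toMatrix e3).det = 1 := by
    rw [← Matrix.det_mul, Basis.toMatrix_mul_toMatrix_flip, Matrix.det_one]
  have hd2 : ((e1.prod fb).toMatrix (e1.prod e2)).det * ((e1.prod e2).toMatrix (e1.prod fb)).det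
      = 1 := by
    rw [← Matrix.det_mul, Basis.toMatrix_mul_toMatrix_flip, Matrix.det_one]
  refine ⟨(e3.toMatrix hb).det * ((e1.prod fb).toMatrix (e1.prod e2)).det,
    mul_ne_zero (left_ne_zero_of_mul_eq_one hd1) (left_ne_zero_of_mul_eq_one hd2), ?_⟩
  intro m d hmd
  rw [← basis_toMatrix_mul_linearMap_toMatrix_mul_basis_toMatrix (e1.prod e2) (e1.prod fb) e3 hb,
    Matrix.det_mul, Matrix.det_mul]
  -- the triangular matrix
  set M' := LinearMap.toMatrix (e1.prod fb) hb (g.coprod m) with hM'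
  have hM'l : ∀ r k, M' r (Sum.inl k) = if r = Sum.inl k then 1 else 0 := by
    intro r k
    rw [hM', LinearMap.toMatrix_apply, Basis.prod_apply]
    simp only [Sum.elim_inl, Function.comp, LinearMap.inl_apply, LinearMap.coprod_apply, map_zero,
      add_zero]
    have : g (e1 k) = hb (Sum.inl k) := by rw [hhb]; rfl
    rw [this, hb.repr_self, Finsupp.single_apply]
    simp only [eq_comm]
  have hM'r : ∀ r i, M' r (Sum.inr i) = hb.repr (m (f i)) r := by
    intro r i
    rw [hM', LinearMap.toMatrix_apply, Basis.prod_apply]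
    simp only [Sum.elim_inr, Function.comp, LinearMap.inr_apply, LinearMap.coprod_apply, map_zero,
      zero_add, hfb]
  have hdecomp : ∀ i : Fin a, ∀ i' : Fin a, i'.val ≤ i.val →
      hb.repr (m (f i)) (Sum.inr i') = if i' = i then d i else 0 := by
    intro i i' hi'
    have h1 := hrep (a - (i.val + 1)) (i.val + 1) (by omega) _ (hmd i) i' (by omega)
    have hh : h i = hb (Sum.inr i) := by rw [hhb]; rfl
    rw [map_sub, map_smul, hh, hb.repr_self, Finsupp.sub_apply, Finsupp.smul_apply,
      sub_eq_zero] at h1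
    rw [h1, Finsupp.single_apply]
    by_cases hii : i' = i
    · subst hii; simp
    · rw [if_neg hii, if_neg (fun hc => hii (Sum.inr_injective hc).symm), smul_zero]
  have hblocks : M' = Matrix.fromBlocks 1 M'.toBlocks₁₂ 0 M'.toBlocks₂₂ := by
    conv_lhs => rw [← Matrix.fromBlocks_toBlocks M']
    congr 1
    · ext r k
      simp only [Matrix.toBlocks₁₁, Matrix.of_apply, hM'l, Matrix.one_apply, Sum.inl.injEq]
    · ext r k
      simp only [Matrix.toBlocks₂₁, Matrix.of_apply, hM'l, Matrix.zero_apply]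
      rw [if_neg (by simp)]
  have hlow : (M'.toBlocks₂₂).IsLowerTriangular := by
    intro i' i hlt
    have hlt' : i' < i := hlt
    simp only [Matrix.toBlocks₂₂, Matrix.of_apply, hM'r]
    rw [hdecomp i i' (le_of_lt hlt'), if_neg (ne_of_lt hlt')]
  have hdet : M'.det = ∏ i, d i := by
    rw [hblocks, Matrix.det_fromBlocks_zero₂₁, Matrix.det_one, one_mul,
      Matrix.det_of_isLowerTriangular _ hlow]
    refine Finset.prod_congr rfl fun i _ => ?_
    simp only [Matrix.toBlocks₂₂, Matrix.of_apply, hM'r]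
    rw [hdecomp i i le_rfl, if_pos rfl]
  rw [hdet]
  ring

/-- swapping the two blocks does not change the determinant -/
theorem mw_syl_det_swap {ι1 ι2 : Type*} [Fintype ι1] [DecidableEq ι1] [Fintype ι2] [DecidableEq ι2]
    (e1 : Basis ι1 K V1) (e2 : Basis ι2 K V2) (e3 : Basis (ι1 ⊕ ι2) K V3)
    (g : V1 →ₗ[K] V3) (m : V2 →ₗ[K] V3) :
    (LinearMap.toMatrix (e2.prod e1) (e3.reindex (Equiv.sumComm ι1 ι2)) (m.coprod g)).det
      = (LinearMap.toMatrix (e1.prod e2) e3 (g.coprod m)).det := by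
  rw [← Matrix.det_reindex_self (Equiv.sumComm ι1 ι2)
    (LinearMap.toMatrix (e1.prod e2) e3 (g.coprod m))]
  congr 1
  ext row col
  rw [Matrix.reindex_apply, Matrix.submatrix_apply, LinearMap.toMatrix_apply,
    LinearMap.toMatrix_apply, Basis.repr_reindex_apply, Basis.prod_apply, Basis.prod_apply]
  rcases col with i | j
  · simp only [Sum.elim_inl, Function.comp, LinearMap.inl_apply, LinearMap.coprod_apply, map_zero,
      add_zero, Equiv.sumComm_symm, Equiv.sumComm_apply, Sum.swap_inl, Sum.elim_inr,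
      LinearMap.inr_apply, zero_add]
  · simp only [Sum.elim_inr, Function.comp, LinearMap.inr_apply, LinearMap.coprod_apply, map_zero,
      zero_add, Equiv.sumComm_symm, Equiv.sumComm_apply, Sum.swap_inr, Sum.elim_inl,
      LinearMap.inl_apply, add_zero]

end Fermat.Agent.MW
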