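/-
Project MW (S17), core leaf [SYL] (helper18): THE CURVE LEMMA — for `G ∈ L(A)` with zero divisor
`Z = (G) + A = z_0 + … + z_{a-1}` and a base point free system `ψ` of `L(B)`, the determinant of
`(s₁, s₂) ↦ G s₁ + ℓ_u s₂ : L(B+T) ⊕ L(A+T) → L(A+B+T)` is `A₀ ∏ ⟨u, ψ(z_i)⟩`.  Prefix `mw_syl_`.
-/
import Fermat.Agent.MW.Core.SYL.Curve
import Fermat.Agent.MW.Core.SYL.Flag

set_option autoImplicit false
set_option linter.unusedSectionVars false

noncomputable section

namespace Fermat.Agent.MW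

open AlgebraicCurve ModularCurve Fermat.Agent.S24 Fermat.Agent.JT3 Fermat.Agent.FF Module
open scoped Classical

variable {N : ℕ} [NeZero N]

theorem mw_syl_sec_mem {s : ℕ} {ψ : Fin (s + 1) → mw_F N} {B : mw_Div N}
    (hψ : ∀ i, ψ i ∈ riemannRochSpace B) (u : Fin (s + 1) → mw_K) :
    mw_sec ψ u ∈ riemannRochSpace B := by
  rw [mw_sec]
  refine Submodule.sum_mem _ fun b _ => ?_
  rw [← Algebra.smul_def]
  exact Submodule.smul_mem _ _ (hψ b)

theorem mw_syl_curve {r a b : ℕ} (A B T D₃ : mw_Div N) (hD₃ : D₃ = A + B + T)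
    (hT : riemannRochSpace T = ⊥)
    (hlA : Module.finrank mw_K (riemannRochSpace (A + T)) = a)
    (hlB : Module.finrank mw_K (riemannRochSpace (B + T)) = b)
    (hl3 : Module.finrank mw_K (riemannRochSpace D₃) = b + a)
    (hdegA : Divisor.degree A = a)
    (G : mw_F N) (hG : G ∈ riemannRochSpace A) (hG0 : G ≠ 0)
    (ψ : Fin (r + 1) → mw_F N) (hψ : ∀ i, ψ i ∈ riemannRochSpace B) (hψ0 : ∃ i, ψ i ≠ 0)
    (hpiv : ∀ w : mw_X N, w.ord (ψ (mw_piv ψ w)) = -B w) :
    ∃ z : Fin a → mw_X N,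
      (∑ i, Finsupp.single (z i) (1 : ℤ) = rt_div (rt_isSepGen_jBar N) G + A) ∧
      ∀ (eB : Basis (Fin b) mw_K ↥(riemannRochSpace (B + T)))
        (eA : Basis (Fin a) mw_K ↥(riemannRochSpace (A + T)))
        (e3 : Basis (Fin b ⊕ Fin a) mw_K ↥(riemannRochSpace D₃)),
      ∃ A₀ : mw_K, A₀ ≠ 0 ∧ ∀ u : Fin (r + 1) → mw_K,
        (LinearMap.toMatrix (eB.prod eA) e3
          ((mw_syl_mulBy G (riemannRochSpace (B + T)) (riemannRochSpace D₃)).coprod
            (mw_syl_mulBy (mw_sec ψ u) (riemannRochSpace (A + T)) (riemannRochSpace D₃)))).det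
          = A₀ * ∏ i, mw_dot u (mw_vec ψ (z i)) := by
  have hx := rt_isSepGen_jBar N
  -- the zero divisor
  set Z : mw_Div N := rt_div hx G + A with hZ
  have hZ0 : 0 ≤ Z := by
    rw [Finsupp.le_def]
    intro v
    have := (rt_mem_L_iff hG0).mp hG v
    rw [Finsupp.zero_apply, hZ, Finsupp.add_apply, rt_div_apply]
    omega
  have hZdeg : Divisor.degree Z = a := by
    rw [hZ, map_add, rt_degree_div, zero_add, hdegA]
  obtain ⟨z, hz⟩ := mw_syl_enum a Z hZ0 hZdeg
  refine ⟨z, hz, ?_⟩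
  intro eB eA e3
  have hpart : mw_syl_part z a = Z := by rw [mw_syl_part_top, hz]
  -- memberships
  have hm1 : ∀ s ∈ riemannRochSpace (B + T), G * s ∈ riemannRochSpace D₃ := by
    intro s hs
    have := mw_syl_mul_mem hG hs
    rwa [← add_assoc, ← hD₃] at this
  have hm3 : ∀ (E : mw_Div N) (l : mw_F N), l ∈ riemannRochSpace B →
      ∀ s ∈ riemannRochSpace (A + T - E), l * s ∈ riemannRochSpace (D₃ - E) := by
    intro E l hl s hs
    have := mw_syl_mul_mem hl hs
    have e : B + (A + T - E) = D₃ - E := by rw [hD₃]; abel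
    rwa [e] at this
  have hm2 : ∀ l : mw_F N, l ∈ riemannRochSpace B →
      ∀ s ∈ riemannRochSpace (A + T), l * s ∈ riemannRochSpace D₃ := by
    intro l hl s hs
    have := hm3 0 l hl s (by rwa [sub_zero])
    rwa [sub_zero] at this
  -- the ends of the flags
  have hinv : rt_div hx G⁻¹ = -rt_div hx G := rt_div_inv hx G
  have hd1 : riemannRochSpace (A + T - Z) = ⊥ := by
    have e : A + T - Z = T + rt_div hx G⁻¹ := by rw [hinv, hZ]; abel
    rw [e, eq_bot_iff]
    intro s hs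
    have h1 := (rt_mem_L_add_div_iff hx T (inv_ne_zero hG0)).mp hs
    rw [hT, Submodule.mem_bot] at h1
    rw [Submodule.mem_bot]
    rcases mul_eq_zero.mp h1 with h | h
    · exact h
    · exact absurd h (inv_ne_zero hG0)
  have he3 : D₃ - Z = B + T + rt_div hx G⁻¹ := by rw [hinv, hZ, hD₃]; abel
  have hd2 : Module.finrank mw_K (riemannRochSpace (D₃ - Z)) = b := by
    rw [he3]
    have := rt_finrank_L_add_div hx (B + T) (inv_ne_zero hG0)
    rw [hlB] at this
    exact this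
  -- strict steps
  have hsA := mw_syl_strict (A + T) z (by
    rw [hpart, hd1, hlA]
    have : Module.finrank mw_K ↥(⊥ : Submodule mw_K (mw_F N)) = 0 := finrank_bot _ _
    rw [this, zero_add])
  have hs3 := mw_syl_strict D₃ z (by rw [hpart, hd2, hl3])
  choose f hf hf' using hsA
  choose h hh hh' using hs3
  have hfo : ∀ i : Fin a, f i ≠ 0 ∧ (z i).ord (f i) = -(A + T - mw_syl_part z i.val) (z i) := by
    intro i
    have := hf' i
    rw [mw_syl_sub_part_succ] at this
    exact mw_syl_ord_of_not_mem (hf i) this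
  have hho : ∀ i : Fin a, h i ≠ 0 ∧ (z i).ord (h i) = -(D₃ - mw_syl_part z i.val) (z i) := by
    intro i
    have := hh' i
    rw [mw_syl_sub_part_succ] at this
    exact mw_syl_ord_of_not_mem (hh i) this
  have hsubA : ∀ i : ℕ, riemannRochSpace (A + T - mw_syl_part z i) ≤ riemannRochSpace (A + T) :=
    fun i => rt_L_mono (sub_le_self _ (mw_syl_part_nonneg z i))
  have hsub3 : ∀ i : ℕ, riemannRochSpace (D₃ - mw_syl_part z i) ≤ riemannRochSpace D₃ :=
    fun i => rt_L_mono (sub_le_self _ (mw_syl_part_nonneg z i))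
  -- the data of the flag lemma
  let NA : ℕ → Submodule mw_K ↥(riemannRochSpace (A + T)) := fun i =>
    (riemannRochSpace (A + T - mw_syl_part z i)).comap (riemannRochSpace (A + T)).subtype
  let N3 : ℕ → Submodule mw_K ↥(riemannRochSpace D₃) := fun i =>
    (riemannRochSpace (D₃ - mw_syl_part z i)).comap (riemannRochSpace D₃).subtype
  let f' : Fin a → ↥(riemannRochSpace (A + T)) := fun i => ⟨f i, hsubA i.val (hf i)⟩
  let h' : Fin a → ↥(riemannRochSpace D₃) := fun i => ⟨h i, hsub3 i.val (hh i)⟩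
  have hstepA : ∀ i : Fin a, ∀ n ∈ NA i.val, ∃ t : mw_K, n - t • f' i ∈ NA (i.val + 1) := by
    intro i n hn
    have hn' : (n : mw_F N) ∈ riemannRochSpace (A + T - mw_syl_part z i.val) := hn
    obtain ⟨-, hst⟩ := mw_syl_step (hfo i).1 (hf i) (hfo i).2 hn'
    refine ⟨mw_val (z i) ((n : mw_F N) / f i), ?_⟩
    show ((n - mw_val (z i) ((n : mw_F N) / f i) • f' i : ↥(riemannRochSpace (A + T))) : mw_F N)
      ∈ riemannRochSpace (A + T - mw_syl_part z (i.val + 1))
    rw [mw_syl_sub_part_succ, Submodule.coe_sub, Submodule.coe_smul, Algebra.smul_def]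
    exact hst
  have hstep3 : ∀ i : Fin a, ∀ n ∈ N3 i.val, ∃ t : mw_K, n - t • h' i ∈ N3 (i.val + 1) := by
    intro i n hn
    have hn' : (n : mw_F N) ∈ riemannRochSpace (D₃ - mw_syl_part z i.val) := hn
    obtain ⟨-, hst⟩ := mw_syl_step (hho i).1 (hh i) (hho i).2 hn'
    refine ⟨mw_val (z i) ((n : mw_F N) / h i), ?_⟩
    show ((n - mw_val (z i) ((n : mw_F N) / h i) • h' i : ↥(riemannRochSpace D₃)) : mw_F N)
      ∈ riemannRochSpace (D₃ - mw_syl_part z (i.val + 1))
    rw [mw_syl_sub_part_succ, Submodule.coe_sub, Submodule.coe_smul, Algebra.smul_def]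
    exact hst
  have hNAa : NA a = ⊥ := by
    rw [eq_bot_iff]
    intro n hn
    have hn' : (n : mw_F N) ∈ riemannRochSpace (A + T - mw_syl_part z a) := hn
    rw [hpart, hd1, Submodule.mem_bot] at hn'
    rw [Submodule.mem_bot]
    exact Subtype.ext hn'
  have hfspan : ⊤ ≤ Submodule.span mw_K (Set.range f') := by
    intro n _
    refine mw_syl_flag_span_bot NA hNAa f' hstepA a 0 (by omega) n ?_
    show (n : mw_F N) ∈ riemannRochSpace (A + T - mw_syl_part z 0)
    rw [mw_syl_part_zero, sub_zero]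
    exact n.2
  have hN30 : N3 0 = ⊤ := by
    rw [eq_top_iff]
    intro n _
    show (n : mw_F N) ∈ riemannRochSpace (D₃ - mw_syl_part z 0)
    rw [mw_syl_part_zero, sub_zero]
    exact n.2
  have hN3a : N3 a ≤ LinearMap.range
      (mw_syl_mulBy G (riemannRochSpace (B + T)) (riemannRochSpace D₃)) := by
    intro n hn
    have hn' : (n : mw_F N) ∈ riemannRochSpace (D₃ - mw_syl_part z a) := hn
    rw [hpart, he3] at hn'
    have h1 := (rt_mem_L_add_div_iff hx (B + T) (inv_ne_zero hG0)).mp hn'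
    refine ⟨⟨(n : mw_F N) * G⁻¹, h1⟩, ?_⟩
    apply Subtype.ext
    rw [mw_syl_mulBy_apply hm1]
    show G * ((n : mw_F N) * G⁻¹) = n
    field_simp
  obtain ⟨A₀', hA₀', hdet⟩ := mw_syl_flag_det eB eA e3
    (mw_syl_mulBy G (riemannRochSpace (B + T)) (riemannRochSpace D₃)) N3 hN30 hN3a f' hfspan h'
    hstep3
  -- the diagonal entries
  have hψp : ∀ w : mw_X N, ψ (mw_piv ψ w) ≠ 0 := fun w => (mw_v_piv_spec ψ hψ0 w).1
  set lam : Fin a → mw_K := fun i => mw_val (z i) (ψ (mw_piv ψ (z i)) * f i / h i) with hlam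
  have hlam_ord : ∀ i : Fin a, (z i).ord (ψ (mw_piv ψ (z i)) * f i / h i) = 0 := by
    intro i
    rw [div_eq_mul_inv, (z i).ord_mul (mul_ne_zero (hψp _) (hfo i).1) (inv_ne_zero (hho i).1),
      (z i).ord_mul (hψp _) (hfo i).1, (z i).ord_inv, hpiv, (hfo i).2, (hho i).2, hD₃]
    simp only [Finsupp.sub_apply, Finsupp.add_apply]
    ring
  have hlam_ne : ∀ i : Fin a, ψ (mw_piv ψ (z i)) * f i / h i ≠ 0 := fun i =>
    div_ne_zero (mul_ne_zero (hψp _) (hfo i).1) (hho i).1
  have hlam0 : ∀ i, lam i ≠ 0 := fun i =>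
    mw_v_ne_zero_of_ord_eq_zero (z i) (hlam_ne i) (hlam_ord i)
  refine ⟨A₀' * ∏ i, lam i, mul_ne_zero hA₀' (Finset.prod_ne_zero_iff.mpr fun i _ => hlam0 i), ?_⟩
  intro u
  have hsecB := mw_syl_sec_mem hψ u
  rw [hdet (mw_syl_mulBy (mw_sec ψ u) (riemannRochSpace (A + T)) (riemannRochSpace D₃))
    (fun i => mw_dot u (mw_vec ψ (z i)) * lam i) ?_, Finset.prod_mul_distrib]
  · ring
  intro i
  show ((mw_syl_mulBy (mw_sec ψ u) (riemannRochSpace (A + T)) (riemannRochSpace D₃) (f' i)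
      - (mw_dot u (mw_vec ψ (z i)) * lam i) • h' i : ↥(riemannRochSpace D₃)) : mw_F N)
    ∈ riemannRochSpace (D₃ - mw_syl_part z (i.val + 1))
  rw [Submodule.coe_sub, Submodule.coe_smul, mw_syl_mulBy_apply (hm2 _ hsecB), Algebra.smul_def,
    mw_syl_sub_part_succ]
  have hn : mw_sec ψ u * f i ∈ riemannRochSpace (D₃ - mw_syl_part z i.val) :=
    hm3 _ _ hsecB _ (hf i)
  obtain ⟨-, hst⟩ := mw_syl_step (hho i).1 (hh i) (hho i).2 hn
  have hval : mw_val (z i) (mw_sec ψ u * f i / h i) = mw_dot u (mw_vec ψ (z i)) * lam i := by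
    have e : mw_sec ψ u * f i / h i
        = (mw_sec ψ u / ψ (mw_piv ψ (z i))) * (ψ (mw_piv ψ (z i)) * f i / h i) := by
      have := hψp (z i)
      have := (hho i).1
      field_simp
    rw [e, mw_v_mul (z i) (mw_v_sec_div_mem ψ hψ0 (z i) u)
      ((mw_v_mem_iff (z i) (hlam_ne i)).mpr (le_of_eq (hlam_ord i).symm)),
      ← mw_v_dot ψ hψ0 (z i) u]
  rw [hval] at hst
  exact hst

end Fermat.Agent.MW
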