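/-
Project MW (S17), core leaf [SYL] (helper18): the GENERIC SYLVESTER MATRIX of two families of linear
maps `φ b : V1 → V3` (variables `c_b`), `χ b : V2 → V3` (variables `u_b`) in fixed bases
(Mathlib only).  Prefix `mw_syl_`.

* `mw_syl_res`        : the determinant, a polynomial in `(c, u)`;
* `mw_syl_res_eval`   : its value at `(c, u)` is the determinant of
                         `(v₁, v₂) ↦ (∑ c_b φ_b) v₁ + (∑ u_b χ_b) v₂`;
* `mw_syl_res_homL/R` : it is bihomogeneous of bidegree `(card ι1, card ι2)`.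
-/
import Mathlib

set_option autoImplicit false

noncomputable section

namespace Fermat.Agent.MW

open Module MvPolynomial

variable {K V1 V2 V3 : Type*} [Field K] [AddCommGroup V1] [Module K V1] [AddCommGroup V2]
  [Module K V2] [AddCommGroup V3] [Module K V3]
  {ι1 ι2 α β : Type*} [Fintype ι1] [DecidableEq ι1] [Fintype ι2] [DecidableEq ι2]
  [Fintype α] [Fintype β]

/-- the generic Sylvester matrix -/
def mw_syl_mat (e1 : Basis ι1 K V1) (e2 : Basis ι2 K V2) (e3 : Basis (ι1 ⊕ ι2) K V3)
    (φ : α → V1 →ₗ[K] V3) (χ : β → V2 →ₗ[K] V3) :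
    Matrix (ι1 ⊕ ι2) (ι1 ⊕ ι2) (MvPolynomial (α ⊕ β) K) :=
  Matrix.of fun r col => Sum.elim
    (fun j => ∑ b, C (e3.repr (φ b (e1 j)) r) * X (Sum.inl b))
    (fun i => ∑ b, C (e3.repr (χ b (e2 i)) r) * X (Sum.inr b)) col

/-- the generic Sylvester resultant -/
def mw_syl_res (e1 : Basis ι1 K V1) (e2 : Basis ι2 K V2) (e3 : Basis (ι1 ⊕ ι2) K V3)
    (φ : α → V1 →ₗ[K] V3) (χ : β → V2 →ₗ[K] V3) : MvPolynomial (α ⊕ β) K :=
  (mw_syl_mat e1 e2 e3 φ χ).det

theorem mw_syl_res_eval (e1 : Basis ι1 K V1) (e2 : Basis ι2 K V2) (e3 : Basis (ι1 ⊕ ι2) K V3)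
    (φ : α → V1 →ₗ[K] V3) (χ : β → V2 →ₗ[K] V3) (c : α → K) (u : β → K) :
    eval (Sum.elim c u) (mw_syl_res e1 e2 e3 φ χ)
      = (LinearMap.toMatrix (e1.prod e2) e3
          ((∑ b, c b • φ b).coprod (∑ b, u b • χ b))).det := by
  rw [mw_syl_res, RingHom.map_det]
  congr 1
  ext r col
  rw [RingHom.mapMatrix_apply, Matrix.map_apply, LinearMap.toMatrix_apply, Basis.prod_apply]
  rcases col with j | i
  · simp only [mw_syl_mat, Matrix.of_apply, Sum.elim_inl, Function.comp, LinearMap.inl_apply,
      LinearMap.coprod_apply, map_zero, add_zero, map_sum, map_mul, eval_C, eval_X,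
      LinearMap.sum_apply, LinearMap.smul_apply, map_smul, Finsupp.coe_finsetSum,
      Finset.sum_apply, Finsupp.smul_apply, smul_eq_mul]
    exact Finset.sum_congr rfl fun b _ => mul_comm _ _
  · simp only [mw_syl_mat, Matrix.of_apply, Sum.elim_inr, Function.comp, LinearMap.inr_apply,
      LinearMap.coprod_apply, map_zero, zero_add, map_sum, map_mul, eval_C, eval_X,
      LinearMap.sum_apply, LinearMap.smul_apply, map_smul, Finsupp.coe_finsetSum,
      Finset.sum_apply, Finsupp.smul_apply, smul_eq_mul]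
    exact Finset.sum_congr rfl fun b _ => mul_comm _ _

/-- a determinant whose columns are weighted homogeneous of degrees `n col` is weighted
homogeneous of degree `∑ n col` -/
theorem mw_syl_det_isWeightedHomogeneous {σ ρ : Type*} [Fintype ρ] [DecidableEq ρ]
    (w : σ → ℕ) (M : Matrix ρ ρ (MvPolynomial σ K)) (n : ρ → ℕ)
    (hM : ∀ r col, IsWeightedHomogeneous w (M r col) (n col)) :
    IsWeightedHomogeneous w M.det (∑ col, n col) := by
  rw [Matrix.det_apply']
  refine IsWeightedHomogeneous.sum _ _ _ fun τ _ => ?_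
  have h1 : IsWeightedHomogeneous w (∏ i, M (τ i) i) (∑ i, n i) :=
    IsWeightedHomogeneous.prod _ _ _ fun i _ => hM (τ i) i
  have h2 : IsWeightedHomogeneous w
      (((Equiv.Perm.sign τ : ℤ) : MvPolynomial σ K)) 0 := by
    have : ((Equiv.Perm.sign τ : ℤ) : MvPolynomial σ K) = C ((Equiv.Perm.sign τ : ℤ) : K) := by
      simp
    rw [this]
    exact isWeightedHomogeneous_C _ _
  have := h2.mul h1
  rwa [zero_add] at this

theorem mw_syl_res_homL (e1 : Basis ι1 K V1) (e2 : Basis ι2 K V2) (e3 : Basis (ι1 ⊕ ι2) K V3)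
    (φ : α → V1 →ₗ[K] V3) (χ : β → V2 →ₗ[K] V3) :
    (mw_syl_res e1 e2 e3 φ χ).IsWeightedHomogeneous
      (Sum.elim (fun _ => 1) (fun _ => 0) : α ⊕ β → ℕ) (Fintype.card ι1) := by
  have h := mw_syl_det_isWeightedHomogeneous
    (Sum.elim (fun _ => 1) (fun _ => 0) : α ⊕ β → ℕ) (mw_syl_mat e1 e2 e3 φ χ)
    (Sum.elim (fun _ => 1) (fun _ => 0)) (by
      intro r col
      rcases col with j | i
      · simp only [mw_syl_mat, Matrix.of_apply, Sum.elim_inl]
        refine IsWeightedHomogeneous.sum _ _ _ fun b _ => ?_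
        have := (isWeightedHomogeneous_X (R := K)
          (Sum.elim (fun _ => 1) (fun _ => 0) : α ⊕ β → ℕ) (Sum.inl b)).C_mul
            (e3.repr (φ b (e1 j)) r)
        simpa using this
      · simp only [mw_syl_mat, Matrix.of_apply, Sum.elim_inr]
        refine IsWeightedHomogeneous.sum _ _ _ fun b _ => ?_
        have := (isWeightedHomogeneous_X (R := K)
          (Sum.elim (fun _ => 1) (fun _ => 0) : α ⊕ β → ℕ) (Sum.inr b)).C_mul
            (e3.repr (χ b (e2 i)) r)
        simpa using this)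
  rw [Fintype.sum_sum_type] at h
  simpa [mw_syl_res] using h

theorem mw_syl_res_homR (e1 : Basis ι1 K V1) (e2 : Basis ι2 K V2) (e3 : Basis (ι1 ⊕ ι2) K V3)
    (φ : α → V1 →ₗ[K] V3) (χ : β → V2 →ₗ[K] V3) :
    (mw_syl_res e1 e2 e3 φ χ).IsWeightedHomogeneous
      (Sum.elim (fun _ => 0) (fun _ => 1) : α ⊕ β → ℕ) (Fintype.card ι2) := by
  have h := mw_syl_det_isWeightedHomogeneous
    (Sum.elim (fun _ => 0) (fun _ => 1) : α ⊕ β → ℕ) (mw_syl_mat e1 e2 e3 φ χ)
    (Sum.elim (fun _ => 0) (fun _ => 1)) (by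
      intro r col
      rcases col with j | i
      · simp only [mw_syl_mat, Matrix.of_apply, Sum.elim_inl]
        refine IsWeightedHomogeneous.sum _ _ _ fun b _ => ?_
        have := (isWeightedHomogeneous_X (R := K)
          (Sum.elim (fun _ => 0) (fun _ => 1) : α ⊕ β → ℕ) (Sum.inl b)).C_mul
            (e3.repr (φ b (e1 j)) r)
        simpa using this
      · simp only [mw_syl_mat, Matrix.of_apply, Sum.elim_inr]
        refine IsWeightedHomogeneous.sum _ _ _ fun b _ => ?_
        have := (isWeightedHomogeneous_X (R := K)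
          (Sum.elim (fun _ => 0) (fun _ => 1) : α ⊕ β → ℕ) (Sum.inr b)).C_mul
            (e3.repr (χ b (e2 i)) r)
        simpa using this)
  rw [Fintype.sum_sum_type] at h
  simpa [mw_syl_res] using h

omit [Fintype α] [Fintype β] in
/-- substituting constants for the first block and then evaluating = evaluating -/
theorem mw_syl_eval_subL (c : α → K) (u : β → K) (p : MvPolynomial (α ⊕ β) K) :
    eval u (aeval (Sum.elim (fun j => C (c j)) (fun b => X b) : α ⊕ β → MvPolynomial β K) p)
      = eval (Sum.elim c u) p := by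
  have : ((eval u).comp (aeval (Sum.elim (fun j => C (c j)) (fun b => X b) :
      α ⊕ β → MvPolynomial β K)).toRingHom : MvPolynomial (α ⊕ β) K →+* K)
      = eval (Sum.elim c u) := by
    apply MvPolynomial.ringHom_ext
    · intro r; simp
    · intro i; rcases i with j | b <;> simp
  exact congrArg (fun f => f p) this

omit [Fintype α] [Fintype β] in
/-- substituting constants for the second block and then evaluating = evaluating -/
theorem mw_syl_eval_subR (c : α → K) (u : β → K) (p : MvPolynomial (α ⊕ β) K) :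
    eval c (aeval (Sum.elim (fun j => X j) (fun b => C (u b)) : α ⊕ β → MvPolynomial α K) p)
      = eval (Sum.elim c u) p := by
  have : ((eval c).comp (aeval (Sum.elim (fun j => X j) (fun b => C (u b)) :
      α ⊕ β → MvPolynomial α K)).toRingHom : MvPolynomial (α ⊕ β) K →+* K)
      = eval (Sum.elim c u) := by
    apply MvPolynomial.ringHom_ext
    · intro r; simp
    · intro i; rcases i with j | b <;> simp
  exact congrArg (fun f => f p) this

end Fermat.Agent.MW
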